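import Mathlib
import Fermat.Prelude.Def_AlgebraicCurve_DivisorClassGroup
import Fermat.Agent.MUL.S28.LevelOneUnit

set_option autoImplicit false

/-!
# S24 bridge: places of a function field vs. height one primes of a Dedekind domain

General form: `B` is any Dedekind domain with fraction field `F`, `K ⊆ B`.
-/

noncomputable section

open IsDedekindDomain WithZero AlgebraicCurve

namespace Fermat.Agent.S24Bridge

variable {K F : Type*} [Field K] [Field F] [Algebra K F]
variable {B : Type*} [CommRing B] [IsDedekindDomain B] [Algebra B F] [IsFractionRing B F]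
variable [Algebra K B] [IsScalarTower K B F]

/-- (B0) valuation rings are integrally closed: the integral closure of a subring contained in
`O_v` is contained in `O_v`. -/
theorem mem_of_isIntegral {R : Type*} [CommRing R] [Algebra R F] (v : Place K F)
    (hR : ∀ r : R, algebraMap R F r ∈ v.toValuationSubring) {f : F} (hf : IsIntegral R f) :
    f ∈ v.toValuationSubring := by
  have hint : IsIntegral v.toValuationSubring f := by
    obtain ⟨p, hp, hpf⟩ := hf
    let φ : R →+* v.toValuationSubring :=
      (algebraMap R F).codRestrict v.toValuationSubring.toSubring hR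
    refine ⟨p.map φ, hp.map φ, ?_⟩
    rw [Polynomial.eval₂_map]
    have hcomp : (algebraMap v.toValuationSubring F).comp φ = algebraMap R F := by
      ext r; rfl
    rw [hcomp]
    exact hpf
  obtain ⟨y, hy⟩ := (IsIntegrallyClosed.isIntegral_iff (R := v.toValuationSubring) (K := F)).mp hint
  rw [← hy]
  exact y.2

/-- membership in the valuation ring of the place attached to `P`. -/
theorem mem_ofHeightOneSpectrum_iff (P : HeightOneSpectrum B) (f : F) :
    f ∈ (Place.ofHeightOneSpectrum (K := K) (F := F) P).toValuationSubring ↔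
      P.valuation F f ≤ 1 :=
  Iff.rfl

/-- a uniformizer for `P.valuation` is irreducible in the valuation ring of the attached place. -/
theorem irreducible_of_valuation_eq (P : HeightOneSpectrum B) {π : F}
    (hπ : P.valuation F π = exp (-1 : ℤ))
    (hπmem : π ∈ (Place.ofHeightOneSpectrum (K := K) (F := F) P).toValuationSubring) :
    Irreducible (⟨π, hπmem⟩ : (Place.ofHeightOneSpectrum (K := K) (F := F) P).toValuationSubring) := by
  set v := Place.ofHeightOneSpectrum (K := K) (F := F) P with hv
  have hπ0 : π ≠ 0 := by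
    intro h
    rw [h, map_zero] at hπ
    exact WithZero.coe_ne_zero hπ.symm
  rw [IsDiscreteValuationRing.irreducible_iff_uniformizer]
  apply le_antisymm
  · intro a ha
    rw [Ideal.mem_span_singleton']
    have hlt : P.valuation F (a : F) < 1 := by
      have h1 := (ValuationSubring.valuation_lt_one_iff v.toValuationSubring a).mp ha
      have heq := Valuation.isEquiv_valuation_valuationSubring (P.valuation F)
      exact (Valuation.isEquiv_iff_val_lt_one.mp heq).mpr h1
    have hle : P.valuation F ((a : F) / π) ≤ 1 := by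
      rw [map_div₀, hπ]
      rcases eq_or_ne (a : F) 0 with h0 | h0
      · simp [h0]
      · obtain ⟨m, hm⟩ : ∃ m : ℤ, P.valuation F (a : F) = exp m :=
          ⟨WithZero.log (P.valuation F (a : F)),
            (WithZero.exp_log ((Valuation.ne_zero_iff _).mpr h0)).symm⟩
        rw [hm] at hlt ⊢
        rw [← WithZero.exp_zero, WithZero.exp_lt_exp] at hlt
        rw [← WithZero.exp_sub, ← WithZero.exp_zero, WithZero.exp_le_exp]
        omega
    refine ⟨⟨(a : F) / π, hle⟩, Subtype.ext ?_⟩
    show (a : F) / π * π = a
    field_simp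
  · rw [Ideal.span_le, Set.singleton_subset_iff]
    show (⟨π, hπmem⟩ : v.toValuationSubring) ∈ IsLocalRing.maximalIdeal v.toValuationSubring
    rw [ValuationSubring.valuation_lt_one_iff]
    have heq := Valuation.isEquiv_valuation_valuationSubring (P.valuation F)
    refine (Valuation.isEquiv_iff_val_lt_one.mp heq).mp ?_
    show P.valuation F π < 1
    rw [hπ, ← WithZero.exp_zero, WithZero.exp_lt_exp]
    norm_num

/-- (B2) the adic valuation of the place attached to `P` is the `P`-adic valuation. -/
theorem adicValuation_ofHeightOneSpectrum (P : HeightOneSpectrum B) :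
    (Place.ofHeightOneSpectrum (K := K) (F := F) P).adicValuation = P.valuation F := by
  set v := Place.ofHeightOneSpectrum (K := K) (F := F) P with hv
  obtain ⟨π, hπ⟩ := P.valuation_exists_uniformizer F
  have hπ0 : π ≠ 0 := by
    intro h
    rw [h, map_zero] at hπ
    exact WithZero.coe_ne_zero hπ.symm
  have hπmem : π ∈ v.toValuationSubring := by
    show P.valuation F π ≤ 1
    rw [hπ, ← WithZero.exp_zero, WithZero.exp_le_exp]
    norm_num
  have hirr := irreducible_of_valuation_eq (K := K) P hπ hπmem
  have h1 : v.adicValuation π = exp (-1 : ℤ) := v.adicValuation_coe_irreducible hirr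
  ext x
  rcases eq_or_ne x 0 with rfl | hx
  · simp
  obtain ⟨m, hm⟩ : ∃ m : ℤ, P.valuation F x = exp m :=
    ⟨WithZero.log (P.valuation F x), (WithZero.exp_log ((Valuation.ne_zero_iff _).mpr hx)).symm⟩
  -- u = x * π ^ m is a unit
  set u : F := x * π ^ m with hu
  have hu0 : u ≠ 0 := mul_ne_zero hx (zpow_ne_zero _ hπ0)
  have hval : P.valuation F u = 1 := by
    rw [hu, map_mul, map_zpow₀, hm, hπ, ← WithZero.exp_zsmul, ← WithZero.exp_add]
    simp
  have humem : u ∈ v.toValuationSubring := by
    show P.valuation F u ≤ 1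
    rw [hval]
  have huinv : u⁻¹ ∈ v.toValuationSubring := by
    show P.valuation F u⁻¹ ≤ 1
    rw [map_inv₀, hval, inv_one]
  have hunit : IsUnit (⟨u, humem⟩ : v.toValuationSubring) := by
    refine IsUnit.of_mul_eq_one ⟨u⁻¹, huinv⟩ (Subtype.ext ?_)
    show u * u⁻¹ = 1
    exact mul_inv_cancel₀ hu0
  have hvu : v.adicValuation u = 1 := (v.adicValuation_coe_eq_one_iff ⟨u, humem⟩).mpr hunit
  have hx' : x = u * π ^ (-m) := by
    rw [hu, mul_assoc, ← zpow_add₀ hπ0]
    simp
  rw [hm]
  conv_lhs => rw [hx']
  rw [map_mul, map_zpow₀, hvu, h1, one_mul, ← WithZero.exp_zsmul]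
  simp

/-- (B2') `ord` of the place attached to `P`. -/
theorem ord_ofHeightOneSpectrum (P : HeightOneSpectrum B) (f : F) :
    (Place.ofHeightOneSpectrum (K := K) (F := F) P).ord f = -(WithZero.log (P.valuation F f)) := by
  rw [Place.ord, adicValuation_ofHeightOneSpectrum]

/-- (B3) every element of `O_v` is a fraction `b / s` with `s ∉ P`. -/
theorem exists_div_of_mem (P : HeightOneSpectrum B) {f : F}
    (hf : f ∈ (Place.ofHeightOneSpectrum (K := K) (F := F) P).toValuationSubring) :
    ∃ b s : B, s ∉ P.asIdeal ∧ f = algebraMap B F b / algebraMap B F s := by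
  have hf' : P.valuation F f ≤ 1 := hf
  obtain ⟨n, d, hnd⟩ := P.exists_primeCompl_mul_eq_of_integer f hf'
  have hd : (d : B) ∉ P.asIdeal := d.2
  have hd0 : algebraMap B F (d : B) ≠ 0 := by
    intro h
    have : (d : B) = 0 := (IsFractionRing.injective B F) (by rw [h, map_zero])
    exact hd (this ▸ P.asIdeal.zero_mem)
  exact ⟨n, d, hd, by rw [eq_div_iff hd0, hnd]⟩

/-- (B1) a place whose valuation ring contains `B` comes from a height one prime of `B`. -/
theorem exists_eq_ofHeightOneSpectrum (v : Place K F)
    (hB : ∀ b : B, algebraMap B F b ∈ v.toValuationSubring) :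
    ∃ P : HeightOneSpectrum B, v = Place.ofHeightOneSpectrum (K := K) (F := F) P := by
  classical
  let φ : B →+* v.toValuationSubring :=
    (algebraMap B F).codRestrict v.toValuationSubring.toSubring hB
  have hφ : ∀ b : B, ((φ b : v.toValuationSubring) : F) = algebraMap B F b := fun _ => rfl
  let P₀ : Ideal B := Ideal.comap φ (IsLocalRing.maximalIdeal v.toValuationSubring)
  have hprime : P₀.IsPrime := Ideal.comap_isPrime φ _
  -- elements outside `P₀` are units of `O_v`
  have hunit : ∀ s : B, s ∉ P₀ → (algebraMap B F s)⁻¹ ∈ v.toValuationSubring := by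
    intro s hs
    have hsu : IsUnit (φ s) := by
      by_contra hns
      exact hs ((IsLocalRing.mem_maximalIdeal _).mpr hns)
    obtain ⟨u, hu⟩ := hsu
    have h1 : ((u⁻¹ : (v.toValuationSubring)ˣ) : v.toValuationSubring) * φ s = 1 := by
      rw [← hu]; exact u.inv_mul
    have h2 : (((u⁻¹ : (v.toValuationSubring)ˣ) : v.toValuationSubring) : F) * algebraMap B F s = 1 := by
      have := congrArg (Subtype.val) h1
      simpa [hφ] using this
    have h3 : (algebraMap B F s)⁻¹ = (((u⁻¹ : (v.toValuationSubring)ˣ) : v.toValuationSubring) : F) :=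
      (eq_inv_of_mul_eq_one_left h2).symm
    rw [h3]
    exact Subtype.property _
  have hne : P₀ ≠ ⊥ := by
    intro hbot
    apply v.ne_top'
    refine SetLike.ext fun x => ⟨fun _ => ValuationSubring.mem_top x, fun _ => ?_⟩
    obtain ⟨⟨n, d, hd⟩, hx⟩ := IsLocalization.surj (nonZeroDivisors B) x
    have hd0 : d ≠ 0 := nonZeroDivisors.ne_zero hd
    have hdP : d ∉ P₀ := by
      rw [hbot, Ideal.mem_bot]; exact hd0
    have hdF : algebraMap B F d ≠ 0 := by
      intro h
      exact hd0 ((IsFractionRing.injective B F) (by rw [h, map_zero]))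
    have hxeq : x = algebraMap B F n * (algebraMap B F d)⁻¹ := by
      rw [eq_mul_inv_iff_mul_eq₀ hdF]
      exact hx
    rw [hxeq]
    exact v.toValuationSubring.mul_mem _ _ (hB n) (hunit d hdP)
  let P : HeightOneSpectrum B := ⟨P₀, hprime, hne⟩
  refine ⟨P, ?_⟩
  apply Place.ext
  rw [Place.ofHeightOneSpectrum_toValuationSubring]
  have hle : (P.valuation F).valuationSubring ≤ v.toValuationSubring := by
    intro x hx
    have hx' : P.valuation F x ≤ 1 := hx
    obtain ⟨n, d, hnd⟩ := P.exists_primeCompl_mul_eq_of_integer x hx'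
    have hd : (d : B) ∉ P₀ := d.2
    have hd0 : algebraMap B F (d : B) ≠ 0 := by
      intro h
      have : (d : B) = 0 := (IsFractionRing.injective B F) (by rw [h, map_zero])
      exact hd (this ▸ P₀.zero_mem)
    have hxeq : x = algebraMap B F n * (algebraMap B F (d : B))⁻¹ := by
      rw [eq_mul_inv_iff_mul_eq₀ hd0]
      exact hnd
    rw [hxeq]
    exact v.toValuationSubring.mul_mem _ _ (hB n) (hunit d hd)
  rw [← HeightOneSpectrum.valuationSubringAtPrime_eq_valuationSubring] at hle ⊢
  exact (ValuationSubring.eq_of_le_of_ne_top _ hle v.ne_top').symm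

/-- the prime is recovered from the place: `b ∈ P ↔ 0 < ord_v b`. -/
theorem mem_asIdeal_iff_ord_pos (P : HeightOneSpectrum B) (b : B) (hb : b ≠ 0) :
    b ∈ P.asIdeal ↔
      0 < (Place.ofHeightOneSpectrum (K := K) (F := F) P).ord (algebraMap B F b) := by
  rw [ord_ofHeightOneSpectrum, ← HeightOneSpectrum.valuation_lt_one_iff_mem (K := F)]
  have hbF : algebraMap B F b ≠ 0 := by
    intro h
    exact hb ((IsFractionRing.injective B F) (by rw [h, map_zero]))
  obtain ⟨m, hm⟩ : ∃ m : ℤ, P.valuation F (algebraMap B F b) = exp m :=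
    ⟨WithZero.log (P.valuation F (algebraMap B F b)),
      (WithZero.exp_log ((Valuation.ne_zero_iff _).mpr hbF)).symm⟩
  rw [hm, WithZero.log_exp, ← WithZero.exp_zero, WithZero.exp_lt_exp]
  omega

/-- (B1') `Place.ofHeightOneSpectrum` is injective. -/
theorem ofHeightOneSpectrum_injective :
    Function.Injective (Place.ofHeightOneSpectrum (K := K) (F := F) (R := B)) := by
  intro P P' h
  apply HeightOneSpectrum.ext
  ext b
  rcases eq_or_ne b 0 with rfl | hb
  · simp
  rw [mem_asIdeal_iff_ord_pos (K := K) (F := F) P b hb,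
    mem_asIdeal_iff_ord_pos (K := K) (F := F) P' b hb, h]

/-- (B4) `ord` of an element of `B` is the multiplicity of `P` in the ideal it generates. -/
theorem ord_algebraMap_eq_count (P : HeightOneSpectrum B) (b : B) (hb : b ≠ 0) :
    (Place.ofHeightOneSpectrum (K := K) (F := F) P).ord (algebraMap B F b) =
      ((Associates.mk P.asIdeal).count (Associates.mk (Ideal.span {b})).factors : ℤ) := by
  rw [ord_ofHeightOneSpectrum, HeightOneSpectrum.valuation_of_algebraMap,
    HeightOneSpectrum.intValuation_if_neg _ hb, WithZero.log_exp, neg_neg]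

end Fermat.Agent.S24Bridge
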