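import Mathlib
import Fermat.Prelude.Def_AlgebraicCurve_CanonicalDivisor

set_option autoImplicit false

/-!
# S24, general theory: function fields in one variable (shared definitions)

`IsFunctionFieldOver K F x`: `x : F` is transcendental over `K` and `F` is finite over `K(x)`.
-/

open IntermediateField

namespace Fermat.Agent.S24Diff

/-- `F` is a function field in one variable over `K`, witnessed by `x`. -/
structure IsFunctionFieldOver (K F : Type*) [Field K] [Field F] [Algebra K F] (x : F) : Prop where
  transcendental : Transcendental K x
  finite : FiniteDimensional K⟮x⟯ F

end Fermat.Agent.S24Diff
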